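import Fermat.Agent.WM.Lev
import Fermat.Agent.WM.LevA
import Fermat.Agent.CFT.GW25

/-!
# Level lowering for semistable curves
-/

set_option autoImplicit false
set_option linter.unusedSectionVars false
set_option linter.style.haveILetI false

noncomputable section

namespace Fermat.Agent.WM

open Matrix IsLocalRing Fermat.Agent.GalRep Fermat.Agent.TW Fermat.Agent.Places Fermat.Agent.Flat
open Fermat.Agent.Cheb Fermat.Agent.KumG Fermat.Agent.MD Fermat.Agent.Sel Fermat.Agent.ImW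
open Fermat.Agent.LC

local notation "Ω" => AlgebraicClosure ℚ

local notation "𝒢" => (AlgebraicClosure ℚ) ≃ₐ[ℚ] (AlgebraicClosure ℚ)

/-- weakening the level -/
def levMono {O : Type} [CommRing O] [IsLocalRing O] {ϖ : O} {p r t g e B n n' : ℕ}
    (X : LevD O ϖ p r t g e B n) (hn : n' ≤ n) : LevD O ϖ p r t g e B n' :=
  letI := X.crA
  letI := X.lrA
  letI := X.nrA
  letI := X.algA
  letI := X.finA
  letI := X.lhA
  { A := X.A
    P := X.P
    hP := fun i => by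
      obtain ⟨m, h1, h2⟩ := X.hP i
      exact ⟨m, h1, hn.trans h2⟩
    d := X.d
    hd := X.hd
    f := X.f
    resA := X.resA
    dia := X.dia
    N := X.N
    Ψ := X.Ψ
    hN := X.hN
    hΨ := X.hΨ
    trN := X.trN
    sqN := X.sqN
    hE2 := X.hE2
    hϖ := X.hϖ
    z := X.z
    hz := X.hz
    hgen := X.hgen }

/-- unramified at `l` -/
def Unr {p : ℕ} (ρ : 𝒢 →* M2 (ZMod p)) (l : ℕ) : Prop :=
  ∀ A : ValuationSubring Ω, A.LiesOverPrime l → ∀ σ ∈ A.inertiaSubgroupIn ℚ, ρ σ = 1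

/-- the local conditions -/
def LcW {k : Type} [Field k] (ρ : 𝒢 →* M2 k) (p : ℕ)
    (Lp : ∀ A : ValuationSubring Ω, Submodule k (A.decompositionSubgroup ℚ → sl k))
    (T U : Finset ℕ) (v : ℕ)
    (A : ValuationSubring Ω) : Submodule k (A.decompositionSubgroup ℚ → sl k) :=
  if v = p then Lp A else if v ∈ T then B1 (adR ρ) _ else
    if v ∈ U then unipL ρ A else Z1 (adR ρ) _

section

variable {k : Type} [Field k] {ρ : 𝒢 →* M2 k} {p : ℕ}
  {Lp : ∀ A : ValuationSubring Ω, Submodule k (A.decompositionSubgroup ℚ → sl k)} {T U : Finset ℕ}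

theorem LcW_p (A : ValuationSubring Ω) : LcW ρ p Lp T U p A = Lp A := if_pos rfl

theorem LcW_T {v : ℕ} (hp : v ≠ p) (hv : v ∈ T) (A : ValuationSubring Ω) :
    LcW ρ p Lp T U v A = B1 (adR ρ) _ := by
  rw [LcW, if_neg hp, if_pos hv]

theorem LcW_U {v : ℕ} (hp : v ≠ p) (hv : v ∉ T) (hv' : v ∈ U) (A : ValuationSubring Ω) :
    LcW ρ p Lp T U v A = unipL ρ A := by
  rw [LcW, if_neg hp, if_neg hv, if_pos hv']

theorem LcW_Z {v : ℕ} (hp : v ≠ p) (hv : v ∉ T) (hv' : v ∉ U) (A : ValuationSubring Ω) :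
    LcW ρ p Lp T U v A = Z1 (adR ρ) _ := by
  rw [LcW, if_neg hp, if_neg hv, if_neg hv']

theorem B1_le_LcW (hlc : ∃ F : IntermediateField ℚ Ω, FiniteDimensional ℚ F ∧
      ∀ σ : 𝒢, (∀ x ∈ F, σ x = x) → ρ σ = 1)
    (h1 : ∀ A : ValuationSubring Ω, A.LiesOverPrime p → B1 (adR ρ) _ ≤ Lp A) (v : ℕ)
    (A : ValuationSubring Ω) (hA : A.LiesOverPrime v) :
    B1 (adR ρ) _ ≤ LcW ρ p Lp T U v A := by
  rw [LcW]
  split_ifs with h
  · exact h1 A (h ▸ hA)
  · exact le_rfl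
  · exact B1_le_unipL ρ hlc A
  · exact B1_le_Z1 ρ hlc _

theorem LcW_le_Z1 (hlc : ∃ F : IntermediateField ℚ Ω, FiniteDimensional ℚ F ∧
      ∀ σ : 𝒢, (∀ x ∈ F, σ x = x) → ρ σ = 1)
    (h1 : ∀ A : ValuationSubring Ω, A.LiesOverPrime p → Lp A ≤ Z1 (adR ρ) _) (v : ℕ)
    (A : ValuationSubring Ω) (hA : A.LiesOverPrime v) :
    LcW ρ p Lp T U v A ≤ Z1 (adR ρ) _ := by
  rw [LcW]
  split_ifs with h
  · exact h1 A (h ▸ hA)
  · exact B1_le_Z1 ρ hlc _
  · exact unipL_le_Z1 ρ A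
  · exact le_rfl

end

theorem red_one {O T Y : Type} [CommRing O] [IsLocalRing O] [IsNoetherianRing O]
    [IsAdicComplete (maximalIdeal O) O] [CommRing T] [Algebra O T] [AddCommGroup Y] [Module O Y]
    [Module.Finite O Y] [Module.Free O Y] [Nontrivial Y] {p : ℕ} [hp : Fact p.Prime]
    {hpO : (p : O) ∈ maximalIdeal O}
    {S : Set ℕ} {ρb : GQ →* M2 (ResidueField O)} {ψ : T →ₐ[O] Module.End O Y}
    {θ : T →ₐ[O] ResidueField O} {ρ : GQ →* Module.End O Y}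
    (h : HG hpO S (fun g => (ρb g).trace) ψ θ ρ) [Invertible (2 : O)] {g₀ k₀ : GQ}
    (hgk : HG.IrrAt (fun g => (ρb g).trace) g₀ k₀)
    (hred : redR (h.R hgk) h.theta.toRingHom = ρb) {σ : GQ} (h1 : h.R hgk σ = 1) : ρb σ = 1 := by
  rw [← hred]
  ext i j
  have e : h.R hgk σ i j = (1 : Matrix (Fin 2) (Fin 2) h.TT) i j := congrFun (congrFun h1 i) j
  change h.theta (h.R hgk σ i j) = _
  rw [e, Matrix.one_apply, Matrix.one_apply]
  split_ifs
  · exact map_one _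
  · exact _root_.map_zero _

variable {W : WeierstrassCurve ℤ} {p : ℕ} [hp : Fact p.Prime] {ρ : 𝒢 →* M2 (ZMod p)}
  (h : ResW W p ρ) (hss : W.IsSemistableModel) (hp35 : p = 3 ∨ p = 5)
  {O : Type} [CommRing O] [IsDomain O] [IsDiscreteValuationRing O]
  [IsAdicComplete (maximalIdeal O) O] [CharZero O] [Finite (ResidueField O)]
  (hmO : maximalIdeal O = Ideal.span {(p : O)}) (hpO : (p : O) ∈ maximalIdeal O)
  (ι : AlgebraicClosure ℚ →+* ℂ) [Invertible (2 : O)] [Algebra (ZMod p) (ResidueField O)]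
  (hroot : ∀ m n : ℤ, ∃ x y : ResidueField O, x + y = m ∧ x * y = n)
  {g₀ k₀ : 𝒢} (hg₀ : extW ρ (algebraMap (ZMod p) (ResidueField O)) g₀ 0 1 = 1)
  (hgk : HG.IrrAt (fun g => (extW ρ (algebraMap (ZMod p) (ResidueField O)) g).trace) g₀ k₀)
  {M r' : ℕ} [NeZero M] (hsq : Squarefree M) (hmod : W.IsResiduallyModularOfLevel p M)
  (hmin : ∀ l, l.Prime → l ≠ p → l ∣ M → ¬ W.IsResiduallyModularOfLevel p (M / l))
  (hr' : r'.Prime) (hr'p : r' ≠ p) (hr'M : ¬ r' ∣ M) (hr'12 : r' % 12 = 11)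
  (hr'g : W.IsGoodPrimeFor r')
  (hr'1 : (r' : ResidueField O) ≠ 1)
  (hr't : ∀ A : ValuationSubring Ω, A.LiesOverPrime r' → ∀ Φ : 𝒢, A.IsFrobeniusAt Φ r' →
        (extW ρ (algebraMap (ZMod p) (ResidueField O)) Φ).trace ^ 2 ≠
          ((r' : ResidueField O) + 1) ^ 2)
  {S₀ : Set ℕ} (hS₀ : S₀.Finite) (hpS₀ : p ∈ S₀)
  (hgood : ∀ l, l.Prime → l ∉ S₀ → W.IsGoodPrimeFor l)
  (hNS₀ : ∀ l, l.Prime → l ∣ M * r' → l ∈ S₀)
  (Lp : ∀ A : ValuationSubring Ω, Submodule (ResidueField O)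
    (A.decompositionSubgroup ℚ → sl (ResidueField O)))
  (hLp1 : ∀ A : ValuationSubring Ω, A.LiesOverPrime p →
    B1 (adR (extW ρ (algebraMap (ZMod p) (ResidueField O)))) _ ≤ Lp A)
  (hLp2 : ∀ A : ValuationSubring Ω, A.LiesOverPrime p →
    Lp A ≤ Z1 (adR (extW ρ (algebraMap (ZMod p) (ResidueField O)))) _)
  (hLp5 : ∀ A : ValuationSubring Ω, A.LiesOverPrime p →
    Module.finrank (ResidueField O) (Lp A) ≤ 5)
  (hLpm : ∀ (r n B : ℕ) (v : Fin r → ℕ) (A : Fin r → ValuationSubring Ω) (Φ : Fin r → 𝒢)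
    (_ : Function.Injective v) (_ : ∀ i, v i ∉ S₀)
    (_ : ∀ i, TWp p (fun g => (extW ρ (algebraMap (ZMod p) (ResidueField O)) g).trace) (v i)
      (A i) (Φ i)) (N : ℕ) [NeZero N] (_ : N = M * r' * ∏ i, v i) (S : Set ℕ)
    (_ : S = S₀ ∪ Set.range v) (hNS : ∀ l, l.Prime → l ∣ N → l ∈ S)
    (X : TWLev hpO ι hgk hNS (thS (tl (algebraMap (ZMod p) (ResidueField O)) W) S) v A n B)
    (Ap : ValuationSubring Ω) (_ : Ap.LiesOverPrime p),
    letI := X.hH; letI := X.nt; letI := X.fr; ∀ (I : Ideal X.hg.TT)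
      (D : X.hg.TT → ResidueField O)
      (hD : IsDer X.hg.theta.toRingHom (Set.range (algebraMap O X.hg.TT)) I D),
      (p : X.hg.TT) ∈ I → (fun σ : Ap.decompositionSubgroup ℚ => cS X.hg hgk hD σ) ∈ Lp Ap)

include h hp35 hmO hpO ι hg₀ hgk hmod hr' hr'p hr'12 hr'g hS₀ hpS₀ hgood hNS₀ in
/-- the residual representation is unramified outside the level -/
theorem unr_level {l : ℕ} (hl : l.Prime) (hlM : ¬ l ∣ M) (hlp : l ≠ p) : Unr ρ l := by
  have hp2 : p ≠ 2 := by rcases hp35 with h | h <;> omega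
  haveI : NeZero (M * r') := ⟨mul_ne_zero (NeZero.ne M) hr'.ne_zero⟩
  by_cases hlr : l = r'
  · subst hlr
    exact fun A hA σ hσ => h.unr l hl hr'g hlp A hA σ hσ
  intro A hA σ hσ
  set κ := algebraMap (ZMod p) (ResidueField O) with hκ
  have hSS : S₀ = S₀ ∪ Set.range (Fin.elim0 : Fin 0 → ℕ) := by
    rw [Set.range_eq_empty, Set.union_empty]
  have hN : M * r' = M * r' * ∏ i, (Fin.elim0 : Fin 0 → ℕ) i := by simp
  obtain ⟨X⟩ := exists_TWLev_W h hp2 hpO ι κ hgk hS₀ hpS₀ hgood hmod hr'12 hNS₀ (n := 1)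
    le_rfl (v := Fin.elim0) (A := Fin.elim0) (Φ := Fin.elim0) (fun i => i.elim0) (fun i => i.elim0)
    (fun i => i.elim0) (fun i => i.elim0) hN hSS hNS₀
  letI := X.hH
  letI := X.nt
  letI := X.fr
  have hred := redR_eq X.hg hgk (ext_conj h κ) hg₀
  have hlN : ¬ l ∣ M * r' := by
    intro hd
    rcases (Nat.Prime.dvd_mul hl).1 hd with h1 | h1
    · exact hlM h1
    · exact hlr ((Nat.prime_dvd_prime_iff_eq hl hr').1 h1)
  have h1 := R_eq_one X.hg hgk (rhoY_inertia ι hpO hl hlN hlp hA hσ)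
  have h2 : extW ρ κ σ = 1 := red_one X.hg hgk hred h1
  ext i j
  apply κ.injective
  have h3 := congrFun (congrFun h2 i) j
  rw [extW_apply] at h3
  rw [h3, Matrix.one_apply, Matrix.one_apply]
  split_ifs
  · rw [map_one]
  · rw [_root_.map_zero]


end Fermat.Agent.WM
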