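import Fermat.Agent.WM.Occ0

/-!
# Occurrence in characteristic zero and modularity
-/

set_option autoImplicit false
set_option linter.unusedSectionVars false
set_option linter.style.haveILetI false

open IsLocalRing
open scoped TensorProduct
open Fermat.Agent.TW Fermat.Agent.ALCoh
open ModularFormClass

namespace Fermat.Agent.WM

noncomputable section

/-- extension of characters -/
theorem exists_ext {A T' T : Type} [CommRing A] [CommRing T'] [CommRing T] [Module.Finite ℤ T]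
    (inc : T' →+* T) (hinc : Function.Injective inc) (F : A →+* T')
    (hF : Function.Surjective F) (G : A →+* ℤ) (hker : ∀ s, F s = 0 → G s = 0) :
    ∃ χ : T →+* ℂ, ∀ s, χ (inc (F s)) = ((G s : ℤ) : ℂ) := by
  let lam : T' →+* ℤ := (Ideal.Quotient.lift (RingHom.ker F) G (fun s hs => hker s hs)).comp
      (RingHom.quotientKerEquivOfSurjective hF).symm.toRingHom
  have hlam : ∀ s, lam (F s) = G s := by
    intro s
    have h1 : (RingHom.quotientKerEquivOfSurjective hF).symm (F s) = Ideal.Quotient.mk _ s := by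
      rw [RingEquiv.symm_apply_eq]
      rfl
    change (Ideal.Quotient.lift (RingHom.ker F) G (fun s hs => hker s hs))
      ((RingHom.quotientKerEquivOfSurjective hF).symm (F s)) = _
    rw [h1]
    rfl
  letI : Algebra T' T := inc.toAlgebra
  haveI : Algebra.IsIntegral ℤ T := Algebra.IsIntegral.of_finite ℤ T
  haveI : IsScalarTower ℤ T' T := IsScalarTower.of_algebraMap_eq fun n => by
    rw [eq_intCast (algebraMap ℤ T) n, eq_intCast (algebraMap ℤ T') n, map_intCast]
  haveI : Algebra.IsIntegral T' T := Algebra.IsIntegral.tower_top ℤ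
  haveI : FaithfulSMul T' T := (faithfulSMul_iff_algebraMap_injective T' T).2 hinc
  haveI : (RingHom.ker lam).IsPrime := RingHom.ker_isPrime lam
  obtain ⟨Q, hle, hQ, hQc⟩ := Ideal.exists_ideal_over_prime_of_isIntegral (S := T)
    (RingHom.ker lam) ⊥ (by
      intro x hx
      rw [Ideal.mem_comap, Ideal.mem_bot] at hx
      rw [hinc (hx.trans (map_zero (algebraMap T' T)).symm)]
      exact Ideal.zero_mem _)
  have hmemQ : ∀ x : T', inc x ∈ Q ↔ lam x = 0 := by
    intro x
    have h1 : x ∈ Q.comap (algebraMap T' T) ↔ x ∈ RingHom.ker lam := by rw [hQc]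
    exact h1
  have hlamz : ∀ n : ℤ, lam (n : T') = n := fun n => by rw [map_intCast, Int.cast_id]
  haveI : Module.Finite ℤ (T ⧸ Q) :=
    Module.Finite.of_surjective (Ideal.Quotient.mk Q).toAddMonoidHom.toIntLinearMap
      Ideal.Quotient.mk_surjective
  haveI : Algebra.IsIntegral ℤ (T ⧸ Q) := Algebra.IsIntegral.of_finite ℤ _
  have hinj : Function.Injective (algebraMap ℤ (T ⧸ Q)) := by
    rw [injective_iff_map_eq_zero]
    intro n hn
    have h1 : Ideal.Quotient.mk Q (inc (n : T')) = 0 := by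
      rw [map_intCast, map_intCast]
      rwa [eq_intCast] at hn
    rw [Ideal.Quotient.eq_zero_iff_mem, hmemQ, hlamz] at h1
    exact h1
  haveI : FaithfulSMul ℤ (T ⧸ Q) := (faithfulSMul_iff_algebraMap_injective ℤ _).mpr hinj
  haveI : Algebra.IsAlgebraic ℤ (T ⧸ Q) := Algebra.IsIntegral.isAlgebraic
  let ψ : (T ⧸ Q) →ₐ[ℤ] ℂ := IsAlgClosed.lift
  refine ⟨(ψ : (T ⧸ Q) →+* ℂ).comp (Ideal.Quotient.mk Q), fun s => ?_⟩
  have h2 : Ideal.Quotient.mk Q (inc (F s)) = ((G s : ℤ) : T ⧸ Q) := by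
    have h3 : inc (F s - ((G s : ℤ) : T')) ∈ Q := by
      rw [hmemQ, map_sub, hlam, hlamz, sub_self]
    rw [map_sub, map_intCast, ← Ideal.Quotient.eq_zero_iff_mem, map_sub, sub_eq_zero,
      map_intCast] at h3
    exact h3
  change ψ (Ideal.Quotient.mk Q (inc (F s))) = _
  rw [h2, map_intCast]

section inc

variable (N : ℕ) [NeZero N] (S : Set ℕ)

/-- the inclusion of the Hecke algebras -/
def incT : CuspForm.heckeAlgebra N 2 S →+* CuspForm.heckeAlgebra N 2 ∅ :=
  (Subalgebra.inclusion (CuspForm.heckeAlgebra_mono (Set.empty_subset S))).toRingHom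

theorem incT_injective : Function.Injective (incT N S) :=
  Subalgebra.inclusion_injective _

theorem incT_T {l : ℕ} (hl : l.Prime) (hlN : ¬ l ∣ N) (hlS : l ∉ S) :
    incT N S (CuspForm.heckeAlgebra.T hl hlN hlS) =
      CuspForm.heckeAlgebra.T hl hlN (Set.notMem_empty _) := rfl

end inc

variable {O : Type} [CommRing O] [CharZero O] [Module.Flat ℤ O] {N : ℕ} [NeZero N] {S : Set ℕ}
  (hNS : ∀ l, l.Prime → l ∣ N → l ∈ S)

/-- the evaluation of polynomials in the Hecke operators -/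
def evT (hNS : ∀ l, l.Prime → l ∣ N → l ∈ S) :
    MvPolynomial (IS S) ℤ →ₐ[ℤ] CuspForm.heckeAlgebra N 2 S :=
  MvPolynomial.aeval (fun i : IS S =>
    CuspForm.heckeAlgebra.T i.2.1 (i.not_dvd hNS) i.2.2)

theorem evT_surjective : Function.Surjective (evT hNS) := by
  intro x
  obtain ⟨x, hx⟩ := x
  induction hx using Algebra.adjoin_induction with
  | mem x hx =>
    rcases hx with ⟨ℓ, hℓ, hℓN, hℓS, rfl⟩ | ⟨q, hqN, hq, hqS, rfl⟩
    · refine ⟨MvPolynomial.X (⟨ℓ, hℓ, hℓS⟩ : IS S), ?_⟩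
      rw [evT, MvPolynomial.aeval_X]
      rfl
    · exact absurd (hNS q hq hqN) hqS
  | algebraMap r =>
    refine ⟨algebraMap ℤ _ r, ?_⟩
    rw [AlgHom.commutes]
    rfl
  | add x y hx hy h1 h2 =>
    obtain ⟨a, ha⟩ := h1
    obtain ⟨b, hb⟩ := h2
    exact ⟨a + b, by rw [map_add, ha, hb]; rfl⟩
  | mul x y hx hy h1 h2 =>
    obtain ⟨a, ha⟩ := h1
    obtain ⟨b, hb⟩ := h2
    exact ⟨a * b, by rw [map_mul, ha, hb]; rfl⟩

theorem phiG_map (s : MvPolynomial (IS S) ℤ) (hs : evT hNS s = 0) :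
    phiG O hNS (MvPolynomial.map (algebraMap ℤ O) s) = 0 := by
  rw [← FlT.bcAct_aeval hNS]
  have h1 : MvPolynomial.aeval (fun i : IS S =>
      ((1 : O) ⊗ₜ[ℤ] CuspForm.heckeAlgebra.T i.2.1 (i.not_dvd hNS) i.2.2 :
        O ⊗[ℤ] CuspForm.heckeAlgebra N 2 S)) (MvPolynomial.map (algebraMap ℤ O) s) =
      (1 : O) ⊗ₜ[ℤ] evT hNS s := by
    rw [MvPolynomial.aeval_map_algebraMap]
    let J : CuspForm.heckeAlgebra N 2 S →ₐ[ℤ] O ⊗[ℤ] CuspForm.heckeAlgebra N 2 S :=
      Algebra.TensorProduct.includeRight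
    change MvPolynomial.aeval (fun i : IS S => J _) s = J (evT hNS s)
    rw [evT, ← AlgHom.comp_apply, MvPolynomial.comp_aeval]
  rw [h1, hs, TensorProduct.tmul_zero, map_zero]

/-- **occurrence in characteristic zero gives an eigenform** -/
theorem exists_form_of_occ0 (a : ℕ → ℤ)
    (hocc : ∀ s : TS O S, phiG O hNS s = 0 →
      MvPolynomial.aeval (fun l : IS S => ((a l.1 : ℤ) : O)) s = 0) :
    ∃ g : CuspForm (CongruenceSubgroup.Gamma0 N) 2, g.IsNormalizedEigenform ∧
      ∀ l : ℕ, l.Prime → l ∉ S → qCoeff g l = ((a l : ℤ) : ℂ) := by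
  let G : MvPolynomial (IS S) ℤ →ₐ[ℤ] ℤ := MvPolynomial.aeval (fun i : IS S => a i.1)
  have hker : ∀ s, evT hNS s = 0 → G s = 0 := by
    intro s hs
    have h1 := hocc _ (phiG_map (O := O) hNS s hs)
    rw [MvPolynomial.aeval_map_algebraMap] at h1
    have h2 : MvPolynomial.aeval (fun l : IS S => ((a l.1 : ℤ) : O)) s = ((G s : ℤ) : O) := by
      let J : ℤ →ₐ[ℤ] O := Algebra.ofId ℤ O
      change MvPolynomial.aeval (fun l : IS S => J (a l.1)) s = J (G s)
      change _ = J (MvPolynomial.aeval (fun i : IS S => a i.1) s)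
      rw [← AlgHom.comp_apply, MvPolynomial.comp_aeval]
    rw [h2] at h1
    exact_mod_cast h1
  haveI : Module.Finite ℤ (CuspForm.heckeAlgebra N 2 ∅) := Fermat.Agent.S22.result N 2 ∅
  obtain ⟨χ, hχ⟩ := exists_ext (A := MvPolynomial (IS S) ℤ) (incT N S) (incT_injective N S)
    (evT hNS).toRingHom (evT_surjective hNS) G.toRingHom hker
  obtain ⟨g, hg, hgT, -⟩ := LevelRaise.exists_form_of_char (N := N) χ
  refine ⟨g, hg, fun l hl hlS => ?_⟩
  have hlN : ¬ l ∣ N := fun hd => hlS (hNS l hl hd)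
  have h1 := hχ (MvPolynomial.X (⟨l, hl, hlS⟩ : IS S))
  rw [hgT l hl hlN]
  have h2 : (evT hNS).toRingHom (MvPolynomial.X (⟨l, hl, hlS⟩ : IS S)) =
      CuspForm.heckeAlgebra.T hl hlN hlS := by
    change evT hNS _ = _
    rw [evT, MvPolynomial.aeval_X]
  have h3 : G.toRingHom (MvPolynomial.X (⟨l, hl, hlS⟩ : IS S)) = a l := by
    change G _ = _
    exact MvPolynomial.aeval_X _ _
  rw [h2, h3, incT_T] at h1
  exact h1

end

end Fermat.Agent.WM
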