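import Fermat.Agent.WM.Flat
import Fermat.Agent.WM.Char0
import Fermat.Agent.PRG.Rem
import Fermat.Agent.S58
import Fermat.Prelude.Def_WeierstrassCurve_ConductorLevel
import Fermat.Prelude.Def_WeierstrassCurve_Mlc1RowStatement

/-!
# The top level of the modularity lifting theorem
-/

set_option autoImplicit false
set_option linter.unusedSectionVars false
set_option linter.style.haveILetI false

noncomputable section

namespace Fermat.Agent.WM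

open Matrix Fermat.Agent.GalRep Fermat.Agent.TW Fermat.Agent.Places Fermat.Agent.Flat Fermat.Agent.KumG
open Fermat.Agent.MD Fermat.Agent.Sel
open Fermat.Agent.ImW ModularFormClass WeierstrassCurve

local notation "Ω" => AlgebraicClosure ℚ

local notation "𝒢" => (AlgebraicClosure ℚ) ≃ₐ[ℚ] (AlgebraicClosure ℚ)

variable {W : WeierstrassCurve ℤ} {p : ℕ}

/-- raising the level -/
theorem raise {M N : ℕ} [NeZero N] (hMN : M ∣ N) (h : W.IsResiduallyModularOfLevel p M) :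
    W.IsResiduallyModularOfLevel p N := by
  obtain ⟨f, 𝔪, hf, h𝔪, hp, hc⟩ := h
  obtain ⟨g, hg, hgf⟩ := CL.exists_at_level hMN hf
  refine ⟨g, 𝔪, hg, h𝔪, hp, fun ℓ hℓ hg' hℓN hℓp => ?_⟩
  obtain ⟨a, ha, ha'⟩ := hc ℓ hℓ hg' (fun hd => hℓN (hd.trans hMN)) hℓp
  exact ⟨a, by rw [ha, hgf ℓ hℓ hℓN], ha'⟩

/-- the type change statement -/
def TCh (W : WeierstrassCurve ℤ) (p : ℕ) : Prop :=
  ∀ q M r : ℕ, q.Prime → q ≠ p → ¬ q ∣ M → 0 < M → r.Prime → r ∣ M → r % 12 = 11 →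
    W.IsResiduallyModularOfLevel p (q ^ 2 * M) → W.IsResiduallyModularOfLevel p (q * M)

/-- reduction to squarefree levels -/
theorem to_sqfree (hT : TCh W p) {r : ℕ} (hr : r.Prime) (hr12 : r % 12 = 11) :
    ∀ M : ℕ, 0 < M → r ∣ M → (∀ q : ℕ, q.Prime → ¬ q ^ 3 ∣ M) → ¬ p ^ 2 ∣ M → ¬ r ^ 2 ∣ M →
      W.IsResiduallyModularOfLevel p M →
      ∃ M', M' ∣ M ∧ Squarefree M' ∧ r ∣ M' ∧ W.IsResiduallyModularOfLevel p M' := by
  intro M
  induction M using Nat.strong_induction_on with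
  | _ M ih =>
    intro hM hrM h3 hp2 hr2 hmod
    by_cases hsq : Squarefree M
    · exact ⟨M, dvd_rfl, hsq, hrM, hmod⟩
    rw [Nat.squarefree_iff_prime_squarefree] at hsq
    push Not at hsq
    obtain ⟨q, hq, hqM⟩ := hsq
    obtain ⟨M₁, hM₁⟩ := hqM
    have hM₁0 : 0 < M₁ := Nat.pos_of_ne_zero fun h0 => by rw [hM₁, h0] at hM; simp at hM
    have hqM' : M = q ^ 2 * M₁ := by rw [hM₁]; ring
    have hqp : q ≠ p := fun e => hp2 (by rw [← e]; exact ⟨M₁, hqM'⟩)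
    have hqr : q ≠ r := fun e => hr2 (by rw [← e]; exact ⟨M₁, hqM'⟩)
    have hqM₁ : ¬ q ∣ M₁ := fun ⟨c, hc⟩ => h3 q hq ⟨c, by rw [hqM', hc]; ring⟩
    have hrM₁ : r ∣ M₁ := by
      rw [hqM'] at hrM
      refine (Nat.Coprime.dvd_mul_left ?_).1 hrM
      exact Nat.Coprime.pow_right 2 ((Nat.coprime_primes hr hq).2 (Ne.symm hqr))
    have hd : q * M₁ ∣ M := ⟨q, by rw [hqM']; ring⟩
    have hlt : q * M₁ < M := by
      rw [hqM', pow_two, mul_assoc]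
      exact (Nat.lt_mul_iff_one_lt_left (Nat.mul_pos hq.pos hM₁0)).2 hq.one_lt
    obtain ⟨M', h1, h2, h3', h4⟩ := ih (q * M₁) hlt (Nat.mul_pos hq.pos hM₁0)
      (hrM₁.mul_left q) (fun l hl h => h3 l hl (h.trans hd)) (fun h => hp2 (h.trans hd))
      (fun h => hr2 (h.trans hd)) (hT q M₁ r hq hqp hqM₁ hM₁0 hr hrM₁ hr12 (hqM' ▸ hmod))
    exact ⟨M', h1.trans hd, h2, h3', h4⟩

/-- the curve is not residually modular of squarefree level prime to `p` -/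
def NoFl (W : WeierstrassCurve ℤ) (p : ℕ) : Prop :=
  ∀ M : ℕ, M ≠ 0 → Squarefree M → ¬ p ∣ M → ¬ W.IsResiduallyModularOfLevel p M

/-- the lowering statement, `p ∣ Δ` -/
def LowOrd (W : WeierstrassCurve ℤ) (p : ℕ) [Fact p.Prime] (ρ : 𝒢 →* M2 (ZMod p)) : Prop :=
  (p : ℤ) ∣ W.Δ → ∀ M : ℕ, M ≠ 0 → Squarefree M → W.IsResiduallyModularOfLevel p M →
    ∃ M', M' ∣ M ∧ W.IsResiduallyModularOfLevel p M' ∧
      ∀ q, q.Prime → q ≠ p → q ∣ M' → ¬ Unr ρ q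

/-- the core: from the minimal level to characteristic zero -/
def Core (W : WeierstrassCurve ℤ) (p : ℕ) [Fact p.Prime] (ρ : 𝒢 →* M2 (ZMod p)) : Prop :=
  ∀ M : ℕ, M ≠ 0 → Squarefree M → (∀ q, q.Prime → q ∣ M → q ≠ p → ¬ Unr ρ q) →
    (p ∣ M → (p : ℤ) ∣ W.Δ ∧ NoFl W p) → W.IsResiduallyModularOfLevel p M →
    ∃ N : ℕ, N ≠ 0 ∧ Squarefree N ∧ (∀ ℓ : ℕ, ℓ.Prime → (ℓ : ℤ) ∣ W.Δ → ℓ ∣ N) ∧
      ∃ g : CuspForm (CongruenceSubgroup.Gamma0 N) 2, g.IsNormalizedEigenform ∧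
      ∀ l : ℕ, l.Prime → ¬ l ∣ N → l ≠ p → qCoeff g l = ((W.apOfModel l : ℤ) : ℂ)

/-- **The top level of S59.** -/
theorem top [hp : Fact p.Prime] (hp35 : p = 3 ∨ p = 5) (hΔ : W.Δ ≠ 0) (hss : W.IsSemistableModel)
    (hirr : W.ModRepIsIrreducible p) {ρ : 𝒢 →* M2 (ZMod p)} (h : ResW W p ρ) (hT : TCh W p)
    (hL : LowOrd W p ρ) (hC : Core W p ρ) (M₀ : ℕ) [NeZero M₀]
    (hres₀ : W.IsResiduallyModularOfLevel p M₀) (hM₀ : ¬ p ^ 2 ∣ M₀)
    (hM₀3 : ∀ q : ℕ, q.Prime → q ≠ p → ¬ q ^ 3 ∣ M₀) :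
    Mlc1IsModularModelOfExactConductorLevel W := by
  have hp2 : p ≠ 2 := by rcases hp35 with h | h <;> omega
  obtain ⟨r, hr, hrS, hr12, -, hrp, hrg, -⟩ := h.exists_rprime hΔ hss hp35
    (RingHom.id (ZMod p)) (S := (M₀.primeFactors : Set ℕ)) (Finset.finite_toSet _)
  have hrM₀ : ¬ r ∣ M₀ := fun hd => hrS (by
    rw [Finset.mem_coe, Nat.mem_primeFactors]
    exact ⟨hr, hd, NeZero.ne M₀⟩)
  haveI : NeZero (M₀ * r) := ⟨mul_ne_zero (NeZero.ne M₀) hr.ne_zero⟩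
  have hcop : ∀ {l k : ℕ}, l.Prime → l ≠ r → l ^ k ∣ M₀ * r → l ^ k ∣ M₀ := by
    intro l k hl hlr hd
    refine (Nat.Coprime.dvd_mul_right ?_).1 hd
    exact Nat.Coprime.pow_left k ((Nat.coprime_primes hl hr).2 hlr)
  have hr2 : ¬ r ^ 2 ∣ M₀ * r := by
    intro hd
    apply hrM₀
    rw [pow_two] at hd
    exact Nat.dvd_of_mul_dvd_mul_right hr.pos hd
  obtain ⟨M₁, hM₁d, hM₁sq, hrM₁, hM₁mod⟩ := to_sqfree hT hr hr12 (M₀ * r) (NeZero.pos _)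
    (dvd_mul_left r M₀) (fun q hq hd => by
      by_cases hqr : q = r
      · subst hqr
        exact hr2 ((pow_dvd_pow q (by norm_num)).trans hd)
      · by_cases hqp : q = p
        · subst hqp
          exact hM₀ ((pow_dvd_pow q (by norm_num)).trans (hcop hq hqr hd))
        · exact hM₀3 q hq hqp (hcop hq hqr hd))
    (fun hd => hM₀ (hcop hp.out (Ne.symm hrp) hd)) hr2 (raise (dvd_mul_right M₀ r) hres₀)
  have hM₁0 : M₁ ≠ 0 := hM₁sq.ne_zero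
  -- the minimal level
  obtain ⟨M, hM0, hMsq, hMr, hMp, hMmod⟩ : ∃ M : ℕ, M ≠ 0 ∧ Squarefree M ∧
      (∀ q, q.Prime → q ∣ M → q ≠ p → ¬ Unr ρ q) ∧
      (p ∣ M → (p : ℤ) ∣ W.Δ ∧ NoFl W p) ∧ W.IsResiduallyModularOfLevel p M := by
    by_cases hfl : NoFl W p
    · -- no level prime to `p`
      have hpM₁ : p ∣ M₁ := by
        by_contra hpM₁
        exact hfl M₁ hM₁0 hM₁sq hpM₁ hM₁mod
      have hd : (p : ℤ) ∣ W.Δ := by
        by_contra hd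
        obtain ⟨M₂, rfl⟩ := hpM₁
        have hpM₂ : ¬ p ∣ M₂ := by
          rintro ⟨c, rfl⟩
          have h1 := Nat.squarefree_iff_prime_squarefree.1 hM₁sq p hp.out
          exact h1 ⟨c, by ring⟩
        have hM₂0 : M₂ ≠ 0 := right_ne_zero_of_mul hM₁0
        have hrM₂ : r ∣ M₂ := by
          refine (Nat.Coprime.dvd_mul_left ?_).1 hrM₁
          exact (Nat.coprime_primes hr hp.out).2 hrp
        exact hfl M₂ hM₂0 (hM₁sq.squarefree_of_dvd (dvd_mul_left M₂ p)) hpM₂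
          (PRG.remove_p W hΔ hirr (hss p hp.out) (fun hd' => absurd hd' hd)
            (Nat.pos_of_ne_zero hM₂0) (PRG.ok_of_prime hp.out hp2 hr hrM₂ hr12) hpM₂ hM₁mod)
      obtain ⟨M', h1, h2, h3⟩ := hL hd M₁ hM₁0 hM₁sq hM₁mod
      exact ⟨M', fun h0 => hM₁0 (by rw [h0] at h1; exact zero_dvd_iff.1 h1),
        hM₁sq.squarefree_of_dvd h1, fun q hq hqM hqp => h3 q hq hqp hqM, fun _ => ⟨hd, hfl⟩, h2⟩
    · -- a level prime to `p`
      rw [NoFl] at hfl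
      push Not at hfl
      obtain ⟨M₂, h0, hsq₂, hp₂, hmod₂⟩ := hfl
      obtain ⟨M', h1, h2, h3⟩ := low_flat hΔ hss hp35 h h0 hsq₂ hp₂ hmod₂
      exact ⟨M', fun hz => h0 (by rw [hz] at h1; exact zero_dvd_iff.1 h1),
        hsq₂.squarefree_of_dvd h1, fun q hq hqM _ => h3 q hq hqM,
        fun hpM' => absurd (hpM'.trans h1) hp₂, h2⟩
  -- characteristic zero
  obtain ⟨N, hN0, hNsq, hbad, g, hg, hgW⟩ := hC M hM0 hMsq hMr hMp hMmod
  have hlcm0 : Nat.lcm N p ≠ 0 := Nat.lcm_ne_zero hN0 hp.out.ne_zero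
  haveI : NeZero (Nat.lcm N p) := ⟨hlcm0⟩
  have hsq : Squarefree (Nat.lcm N p) := by
    by_cases hpN : p ∣ N
    · rwa [Nat.lcm_eq_left hpN]
    · have hc : Nat.Coprime N p := ((Nat.Prime.coprime_iff_not_dvd hp.out).2 hpN).symm
      rw [hc.lcm_eq_mul, Nat.squarefree_mul hc]
      exact ⟨hNsq, hp.out.squarefree⟩
  obtain ⟨g', hg', hgg'⟩ := CL.exists_at_level (Nat.dvd_lcm_left N p) hg
  have hmod : W.IsModularModelOfLevel (Nat.lcm N p) := by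
    refine ⟨g', hg', fun l hl _ hlN => ?_⟩
    rw [hgg' l hl hlN]
    exact hgW l hl (fun hd => hlN (hd.trans (Nat.dvd_lcm_left N p)))
      (fun e => hlN (e ▸ Nat.dvd_lcm_right N p))
  have hns : ∀ q : ℕ, q.Prime → ¬ q ^ 2 ∣ Nat.lcm N p := fun q hq hd =>
    Nat.squarefree_iff_prime_squarefree.1 hsq q hq (by rwa [pow_two] at hd)
  have h58 := Fermat.Agent.S58.result W hss (Nat.lcm N p) p hp2 hirr (hns p hp.out) hmod
    (fun ℓ hℓ hd => (hbad ℓ hℓ hd).trans (Nat.dvd_lcm_left N p))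
    (fun q hq hd => hns q hq ((pow_dvd_pow q (by norm_num)).trans hd))
  exact ⟨W.conductorLevel, conductorLevel_pos W, squarefree_conductorLevel W,
    fun q hq => prime_dvd_conductorLevel_iff W hΔ hq, h58⟩

end Fermat.Agent.WM
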