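import Fermat.Agent.WM.Low
import Fermat.Agent.ImW.RPrime
import Fermat.Agent.Sel.Wit

/-!
# Level lowering for semistable curves, level prime to `p`
-/

set_option autoImplicit false
set_option linter.unusedSectionVars false
set_option linter.style.haveILetI false

noncomputable section

namespace Fermat.Agent.WM

open Matrix IsLocalRing Fermat.Agent.GalRep Fermat.Agent.TW Fermat.Agent.Places Fermat.Agent.Flat
open Fermat.Agent.Cheb Fermat.Agent.KumG Fermat.Agent.MD Fermat.Agent.Sel Fermat.Agent.ImW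

local notation "Ω" => AlgebraicClosure ℚ

local notation "𝒢" => (AlgebraicClosure ℚ) ≃ₐ[ℚ] (AlgebraicClosure ℚ)

variable {W : WeierstrassCurve ℤ} {p : ℕ} [hp : Fact p.Prime] {ρ : 𝒢 →* M2 (ZMod p)}

/-- the exceptional set -/
def S0W (W : WeierstrassCurve ℤ) (p : ℕ) (F : Finset ℕ) : Set ℕ :=
  (F : Set ℕ) ∪ {p} ∪ {l | ¬ W.IsGoodPrimeFor l}

theorem S0W_finite (hΔ : W.Δ ≠ 0) (F : Finset ℕ) : (S0W W p F).Finite :=
  ((Finset.finite_toSet F).union (Set.toFinite _)).union (LevelRaise.good_finite hΔ)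

theorem mem_S0W {F : Finset ℕ} {l : ℕ} (hl : l ∈ F) : l ∈ S0W W p F :=
  Or.inl (Or.inl hl)

theorem p_mem_S0W {F : Finset ℕ} : p ∈ S0W W p F := Or.inl (Or.inr rfl)

theorem good_of_not_mem_S0W {F : Finset ℕ} {l : ℕ} (hl : l ∉ S0W W p F) :
    W.IsGoodPrimeFor l := by
  by_contra hg
  exact hl (Or.inr hg)

/-- the hypotheses on the residual representation, for a large set -/
theorem resH_big (h : ResW W p ρ) (hΔ : W.Δ ≠ 0) (hp2 : p ≠ 2) {k : Type} [Field k]
    [Algebra (ZMod p) k] : ∃ S : Finset ℕ, ResH p (extW ρ (algebraMap (ZMod p) k)) S := by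
  classical
  refine ⟨insert p W.Δ.natAbs.primeFactors, resH_ext h _ hp2 rfl (fun v hv => ?_)
    (Finset.mem_insert_self _ _) fun l hl hlS => Or.inl fun hd => hlS ?_⟩
  · rcases Finset.mem_insert.1 hv with rfl | hv
    · exact hp.out
    · exact (Nat.mem_primeFactors.1 hv).1
  · exact Finset.mem_insert_of_mem (Nat.mem_primeFactors.2 ⟨hl, Int.natCast_dvd.1 hd,
      Int.natAbs_ne_zero.2 hΔ⟩)

set_option maxHeartbeats 40000000 in
/-- a minimal level prime to `p` -/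
theorem flat_min (hΔ : W.Δ ≠ 0) (hss : W.IsSemistableModel) (hp35 : p = 3 ∨ p = 5)
    (h : ResW W p ρ) {M : ℕ} [NeZero M] (hsq : Squarefree M) (hpM : ¬ p ∣ M)
    (hmod : W.IsResiduallyModularOfLevel p M)
    (hmin : ∀ l, l.Prime → l ≠ p → l ∣ M → ¬ W.IsResiduallyModularOfLevel p (M / l))
    {q : ℕ} (hq : q.Prime) (hqp : q ≠ p) (hqM : q ∣ M) (hqu : Unr ρ q) : False := by
  have hp2 : p ≠ 2 := by rcases hp35 with h | h <;> omega
  obtain ⟨O, _, _, _, _, _, _, hmO, hroot⟩ := exists_wit p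
  have hpO : (p : O) ∈ maximalIdeal O := by
    rw [hmO]; exact Ideal.mem_span_singleton_self _
  haveI : CharP (ResidueField O) p := Fermat.Agent.TW.charP_res hpO
  letI : Algebra (ZMod p) (ResidueField O) := ZMod.algebra _ p
  set κ := algebraMap (ZMod p) (ResidueField O) with hκ
  have h2k : (2 : ResidueField O) ≠ 0 := WM.two_ne κ hp2
  have h2O : IsUnit (2 : O) := by
    by_contra hnu
    apply h2k
    have h1 : (2 : O) ∈ maximalIdeal O := (IsLocalRing.mem_maximalIdeal _).2 hnu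
    rw [← map_ofNat (residue O)]
    exact (IsLocalRing.residue_eq_zero_iff _).2 h1
  letI : Invertible (2 : O) := h2O.invertible
  let ι : AlgebraicClosure ℚ →+* ℂ := (IsAlgClosed.lift : AlgebraicClosure ℚ →ₐ[ℚ] ℂ).toRingHom
  obtain ⟨g₀, hg₀⟩ := h.g0
  obtain ⟨k₀, hk₀⟩ := h.k0
  have hg₀' : extW ρ κ g₀ 0 1 = 1 := by
    rw [extW_apply, hg₀, map_one]
  have hk₀' : extW ρ κ k₀ 1 0 ≠ 0 := by
    rw [extW_apply]
    exact fun h0 => hk₀ ((map_eq_zero _).1 h0)
  have hgk := irrAt_rep h2k (ext_conj h κ) hg₀' hk₀'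
  obtain ⟨r', hr', hr'S, hr'12, -, hr'p, hr'g, -, hr'1, -, hr't⟩ := h.exists_rprime hΔ hss hp35
    κ (S := (M.primeFactors : Set ℕ)) (Finset.finite_toSet _)
  have hr'M : ¬ r' ∣ M := fun hd => hr'S (by
    rw [Finset.mem_coe, Nat.mem_primeFactors]
    exact ⟨hr', hd, NeZero.ne M⟩)
  haveI : NeZero (M * r') := ⟨mul_ne_zero (NeZero.ne M) hr'.ne_zero⟩
  set S₀ := S0W W p (insert r' M.primeFactors) with hS₀def
  have hS₀ : S₀.Finite := S0W_finite hΔ _
  have hNS₀ : ∀ l, l.Prime → l ∣ M * r' → l ∈ S₀ := fun l hl hd => by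
    apply mem_S0W
    rw [Finset.mem_insert, Nat.mem_primeFactors]
    rcases (Nat.Prime.dvd_mul hl).1 hd with h1 | h1
    · exact Or.inr ⟨hl, h1, NeZero.ne M⟩
    · exact Or.inl ((Nat.prime_dvd_prime_iff_eq hl hr').1 h1)
  have hgood : ∀ l, l.Prime → l ∉ S₀ → W.IsGoodPrimeFor l := fun l _ hl => good_of_not_mem_S0W hl
  obtain ⟨Sb, hRes⟩ := resH_big h hΔ hp2 (k := ResidueField O)
  refine no_unr h hss hp35 hmO hpO ι hroot hg₀' hgk hsq hmod hmin hr' hr'p hr'M hr'12 hr'g hr'1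
    (fun A hA Φ hΦ => (hr't A hA Φ hΦ).2) hS₀ p_mem_S0W hgood hNS₀
    (fun A => flatL (extW ρ κ) p A) (fun A _ => B1_le_flatL _ A)
    (fun A _ => flatL_le_Z1 _ hRes.lc A) (fun A hA => ?_) ?_ hq hqp hqM hqu
  · exact (flatL_bound (extW ρ κ) hRes hA (ext_split κ hroot) (flat_W h hp2 hmO ι κ hS₀ p_mem_S0W
      hgood hpM hmod hr'p hr' hr'12 hNS₀ hg₀' hgk hpO hA)).2
  · intro r n B v A Φ hinj hvS hv N _ hN S hSS hNS X Ap hAp
    letI := X.hH
    letI := X.nt
    letI := X.fr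
    intro I D hD hpI
    have hred := redR_eq X.hg hgk (ext_conj h κ) hg₀'
    have hpN : ¬ p ∣ N := by
      rw [hN]
      exact not_dvd_level hpM hr' hr'p fun i => ⟨(hv i).prime, fun e => hvS i (e ▸ p_mem_S0W)⟩
    have hN3 : 3 ≤ N := by
      have h1 : 0 < M := NeZero.pos M
      have h2 : 0 < ∏ i, v i := Finset.prod_pos fun i _ => (hv i).prime.pos
      have h3 : 11 ≤ r' := by omega
      have h4 : 11 ≤ M * r' := by nlinarith
      have h5 : M * r' ≤ N := hN ▸ Nat.le_mul_of_pos_right _ h2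
      omega
    apply (le_sup_right : Submodule.span (ResidueField O) (flatS (extW ρ κ) p Ap) ≤ _)
    apply Submodule.subset_span
    refine ⟨mem_Z1 X.hg hgk hD hred hpI Ap, hAp,
      cD (X.hg.R hgk) X.hg.theta.toRingHom D, fun σ => rfl, ?_⟩
    have := flC_cD X.hg hgk hD hp2 hpN hN3 hAp (finite_quot hmO)
    rw [hred] at this
    exact this

/-- **Level lowering for semistable curves at levels prime to `p`.** -/
theorem low_flat (hΔ : W.Δ ≠ 0) (hss : W.IsSemistableModel) (hp35 : p = 3 ∨ p = 5)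
    (h : ResW W p ρ) {M : ℕ} (hM : M ≠ 0) (hsq : Squarefree M) (hpM : ¬ p ∣ M)
    (hmod : W.IsResiduallyModularOfLevel p M) :
    ∃ M', M' ∣ M ∧ W.IsResiduallyModularOfLevel p M' ∧
      ∀ q, q.Prime → q ∣ M' → ¬ Unr ρ q := by
  classical
  have hex : ∃ M', M' ∣ M ∧ W.IsResiduallyModularOfLevel p M' := ⟨M, dvd_rfl, hmod⟩
  obtain ⟨hd, hm⟩ := Nat.find_spec hex
  have h0 : Nat.find hex ≠ 0 := fun h0 => hM (by rw [h0] at hd; exact zero_dvd_iff.1 hd)
  haveI : NeZero (Nat.find hex) := ⟨h0⟩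
  refine ⟨_, hd, hm, fun q hq hqM hqu => ?_⟩
  refine flat_min hΔ hss hp35 h (hsq.squarefree_of_dvd hd) (fun h1 => hpM (h1.trans hd)) hm
    (fun l hl _ hld hmod' => ?_) hq ?_ hqM hqu
  · exact Nat.find_min hex (Nat.div_lt_self (Nat.pos_of_ne_zero h0) hl.one_lt)
      ⟨(Nat.div_dvd_of_dvd hld).trans hd, hmod'⟩
  · rintro rfl
    exact hpM (hqM.trans hd)

end Fermat.Agent.WM
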