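import Fermat.Agent.WM.Top
import Fermat.Agent.CoreW.StepC
import Fermat.Agent.CoreW.LowO

/-!
# The modularity lifting theorem, from the remaining inputs
-/

set_option autoImplicit false
set_option linter.unusedSectionVars false

noncomputable section

namespace Fermat.Agent.WM

open Matrix Fermat.Agent.GalRep Fermat.Agent.ImW Fermat.Agent.CoreW WeierstrassCurve
open Fermat.Agent.Sel Fermat.Agent.MD

local notation "𝒢" => (AlgebraicClosure ℚ) ≃ₐ[ℚ] (AlgebraicClosure ℚ)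

/-- **S59 from its remaining inputs.** -/
theorem fin {p : ℕ} [hp : Fact p.Prime] (hp35 : p = 3 ∨ p = 5) {W : WeierstrassCurve ℤ}
    (hΔ : W.Δ ≠ 0) (hss : W.IsSemistableModel) (hirr : W.ModRepIsIrreducible p)
    (hT : TCh W p)
    (hU : ∀ {ρ : 𝒢 →* M2 (ZMod p)}, ResW W p ρ → UOne W p ρ)
    (h3 : ∀ {ρ : 𝒢 →* M2 (ZMod p)}, ResW W p ρ → StepIII W p ρ)
    (M₀ : ℕ) [NeZero M₀] (hres₀ : W.IsResiduallyModularOfLevel p M₀) (hM₀ : ¬ p ^ 2 ∣ M₀)
    (hM₀3 : ∀ q : ℕ, q.Prime → q ≠ p → ¬ q ^ 3 ∣ M₀) :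
    Mlc1IsModularModelOfExactConductorLevel W := by
  have hp2 : p ≠ 2 := by rcases hp35 with h | h <;> omega
  obtain ⟨ρ, h⟩ := exists_resW hΔ hp2 hirr
  exact top hp35 hΔ hss hirr h hT
    (fun hd M hM hsq hmod => lowOrd' hΔ hss hp35 h hd hM hsq hmod)
    (fun M hM hsq hmin hpM hmod => core_of hΔ hss hp35 h (stepI hΔ hp2 hirr h)
      (stepII hΔ hss hp2 hirr h (hU h)) (h3 h) M hM hsq hmin hpM hmod) M₀ hres₀ hM₀ hM₀3

end Fermat.Agent.WM
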