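import Fermat.Agent.WM.LowA

/-!
# Level lowering for semistable curves
-/

set_option autoImplicit false
set_option linter.unusedSectionVars false
set_option linter.style.haveILetI false

noncomputable section

namespace Fermat.Agent.WM

open Matrix IsLocalRing Fermat.Agent.GalRep Fermat.Agent.TW Fermat.Agent.Places Fermat.Agent.Flat
open Fermat.Agent.Cheb Fermat.Agent.KumG Fermat.Agent.MD Fermat.Agent.Sel Fermat.Agent.ImW
open Fermat.Agent.LC

local notation "Ω" => AlgebraicClosure ℚ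

local notation "𝒢" => (AlgebraicClosure ℚ) ≃ₐ[ℚ] (AlgebraicClosure ℚ)

variable {W : WeierstrassCurve ℤ} {p : ℕ} [hp : Fact p.Prime] {ρ : 𝒢 →* M2 (ZMod p)}
  (h : ResW W p ρ) (hss : W.IsSemistableModel) (hp35 : p = 3 ∨ p = 5)
  {O : Type} [CommRing O] [IsDomain O] [IsDiscreteValuationRing O]
  [IsAdicComplete (maximalIdeal O) O] [CharZero O] [Finite (ResidueField O)]
  (hmO : maximalIdeal O = Ideal.span {(p : O)}) (hpO : (p : O) ∈ maximalIdeal O)
  (ι : AlgebraicClosure ℚ →+* ℂ) [Invertible (2 : O)] [Algebra (ZMod p) (ResidueField O)]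
  (hroot : ∀ m n : ℤ, ∃ x y : ResidueField O, x + y = m ∧ x * y = n)
  {g₀ k₀ : 𝒢} (hg₀ : extW ρ (algebraMap (ZMod p) (ResidueField O)) g₀ 0 1 = 1)
  (hgk : HG.IrrAt (fun g => (extW ρ (algebraMap (ZMod p) (ResidueField O)) g).trace) g₀ k₀)
  {M r' : ℕ} [NeZero M] (hsq : Squarefree M) (hmod : W.IsResiduallyModularOfLevel p M)
  (hmin : ∀ l, l.Prime → l ≠ p → l ∣ M → ¬ W.IsResiduallyModularOfLevel p (M / l))
  (hr' : r'.Prime) (hr'p : r' ≠ p) (hr'M : ¬ r' ∣ M) (hr'12 : r' % 12 = 11)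
  (hr'g : W.IsGoodPrimeFor r')
  (hr'1 : (r' : ResidueField O) ≠ 1)
  (hr't : ∀ A : ValuationSubring Ω, A.LiesOverPrime r' → ∀ Φ : 𝒢, A.IsFrobeniusAt Φ r' →
        (extW ρ (algebraMap (ZMod p) (ResidueField O)) Φ).trace ^ 2 ≠
          ((r' : ResidueField O) + 1) ^ 2)
  {S₀ : Set ℕ} (hS₀ : S₀.Finite) (hpS₀ : p ∈ S₀)
  (hgood : ∀ l, l.Prime → l ∉ S₀ → W.IsGoodPrimeFor l)
  (hNS₀ : ∀ l, l.Prime → l ∣ M * r' → l ∈ S₀)
  (Lp : ∀ A : ValuationSubring Ω, Submodule (ResidueField O)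
    (A.decompositionSubgroup ℚ → sl (ResidueField O)))
  (hLp1 : ∀ A : ValuationSubring Ω, A.LiesOverPrime p →
    B1 (adR (extW ρ (algebraMap (ZMod p) (ResidueField O)))) _ ≤ Lp A)
  (hLp2 : ∀ A : ValuationSubring Ω, A.LiesOverPrime p →
    Lp A ≤ Z1 (adR (extW ρ (algebraMap (ZMod p) (ResidueField O)))) _)
  (hLp5 : ∀ A : ValuationSubring Ω, A.LiesOverPrime p →
    Module.finrank (ResidueField O) (Lp A) ≤ 5)
  (hLpm : ∀ (r n B : ℕ) (v : Fin r → ℕ) (A : Fin r → ValuationSubring Ω) (Φ : Fin r → 𝒢)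
    (_ : Function.Injective v) (_ : ∀ i, v i ∉ S₀)
    (_ : ∀ i, TWp p (fun g => (extW ρ (algebraMap (ZMod p) (ResidueField O)) g).trace) (v i)
      (A i) (Φ i)) (N : ℕ) [NeZero N] (_ : N = M * r' * ∏ i, v i) (S : Set ℕ)
    (_ : S = S₀ ∪ Set.range v) (hNS : ∀ l, l.Prime → l ∣ N → l ∈ S)
    (X : TWLev hpO ι hgk hNS (thS (tl (algebraMap (ZMod p) (ResidueField O)) W) S) v A n B)
    (Ap : ValuationSubring Ω) (_ : Ap.LiesOverPrime p),
    letI := X.hH; letI := X.nt; letI := X.fr; ∀ (I : Ideal X.hg.TT)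
      (D : X.hg.TT → ResidueField O)
      (hD : IsDer X.hg.theta.toRingHom (Set.range (algebraMap O X.hg.TT)) I D),
      (p : X.hg.TT) ∈ I → (fun σ : Ap.decompositionSubgroup ℚ => cS X.hg hgk hD σ) ∈ Lp Ap)

include h hss hp35 hmO hpO ι hroot hg₀ hgk hsq hmod hmin hr' hr'p hr'M hr'12 hr'g hr'1 hr't hS₀
  hpS₀ hgood hNS₀ hLp1 hLp2 hLp5 hLpm in
set_option maxHeartbeats 40000000 in
/-- **The contradiction**: a minimal level has no prime divisor different from `p` where the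
residual representation is unramified. -/
theorem no_unr {q : ℕ} (hq : q.Prime) (hqp : q ≠ p) (hqM : q ∣ M) (hqu : Unr ρ q) : False := by
  classical
  have hp2 : p ≠ 2 := by rcases hp35 with h | h <;> omega
  set k := ResidueField O with hk
  set κ := algebraMap (ZMod p) k with hκ
  set ρb := extW ρ κ with hρb
  haveI : CharP k p := charP_res hpO
  have h2k : (2 : k) ≠ 0 := two_ne κ hp2
  have hM0 : M ≠ 0 := NeZero.ne M
  haveI : NeZero (M * r') := ⟨mul_ne_zero hM0 hr'.ne_zero⟩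
  have hr'11 : 11 ≤ r' := by omega
  -- the primes of the level
  set P' : Finset ℕ := M.primeFactors.erase p with hP'
  set T : Finset ℕ := P'.filter (fun l => Unr ρ l) with hT
  set U : Finset ℕ := P'.filter (fun l => ¬ Unr ρ l) with hU
  have hmemP : ∀ l, l ∈ P' ↔ l ≠ p ∧ l.Prime ∧ l ∣ M := fun l => by
    rw [hP', Finset.mem_erase, Nat.mem_primeFactors]
    exact ⟨fun h => ⟨h.1, h.2.1, h.2.2.1⟩, fun h => ⟨h.1, h.2.1, h.2.2, hM0⟩⟩
  have hmemT : ∀ l, l ∈ T ↔ (l ≠ p ∧ l.Prime ∧ l ∣ M) ∧ Unr ρ l := fun l => by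
    rw [hT, Finset.mem_filter, hmemP]
  have hmemU : ∀ l, l ∈ U ↔ (l ≠ p ∧ l.Prime ∧ l ∣ M) ∧ ¬ Unr ρ l := fun l => by
    rw [hU, Finset.mem_filter, hmemP]
  have hPTU : ∀ l, l ∈ P' ↔ l ∈ T ∨ l ∈ U := fun l => by
    rw [hmemT, hmemU, hmemP]
    tauto
  have hTU : Disjoint T U := by
    rw [Finset.disjoint_left]
    intro l h1 h2
    exact ((hmemU l).1 h2).2 ((hmemT l).1 h1).2
  set Sf₀ : Finset ℕ := insert p (insert r' P') with hSf₀
  have hmemS : ∀ l, l ∈ Sf₀ ↔ l = p ∨ l = r' ∨ l ∈ P' := fun l => by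
    rw [hSf₀, Finset.mem_insert, Finset.mem_insert]
  have hr'P : r' ∉ P' := fun hh => hr'M ((hmemP _).1 hh).2.2
  have hr'T : r' ∉ T := fun hh => hr'P ((hPTU _).2 (Or.inl hh))
  have hr'U : r' ∉ U := fun hh => hr'P ((hPTU _).2 (Or.inr hh))
  have hpP : p ∉ P' := fun hh => ((hmemP _).1 hh).1 rfl
  have hSprime : ∀ v ∈ Sf₀, v.Prime := by
    intro v hv
    rcases (hmemS v).1 hv with rfl | rfl | hv
    · exact hp.out
    · exact hr'
    · exact ((hmemP v).1 hv).2.1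
  have hRes : ∀ {S : Finset ℕ}, (∀ v ∈ S, v.Prime) → Sf₀ ⊆ S → ResH p ρb S := by
    intro S hSp hsub
    refine resH_ext h κ hp2 rfl hSp (hsub ((hmemS _).2 (Or.inl rfl))) fun l hl hlS => Or.inr ?_
    have hlp : l ≠ p := fun e => hlS (hsub ((hmemS _).2 (Or.inl e)))
    refine unr_level h hp35 hmO hpO ι hg₀ hgk hmod hr' hr'p hr'12 hr'g hS₀ hpS₀ hgood hNS₀ hl ?_ hlp
    intro hd
    exact hlS (hsub ((hmemS _).2 (Or.inr (Or.inr ((hmemP l).2 ⟨hlp, hl, hd⟩)))))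
  have hRes0 : ResH p ρb Sf₀ := hRes hSprime (Finset.Subset.refl _)
  have hsplit : ∀ σ, ∃ α β : k, α + β = (ρb σ).trace ∧ α * β = (ρb σ).det :=
    ext_split κ hroot
  have hconj : ρb complexConjugation = !![1, 0; 0, -1] := ext_conj h κ
  have hinv : ∀ X : sl k, (∀ σ, adR ρb σ X = X) → X = 0 := fun X hX =>
    ext_inv_zero h κ hss hp35 hX
  -- the places
  choose A₀' hA₀' using fun v : {v : ℕ // v.Prime} => exists_liesOverPrime (AlgebraicClosure ℚ) v.2
  let A₀ : ℕ → ValuationSubring Ω := fun v => if hv : v.Prime then A₀' ⟨v, hv⟩ else ⊤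
  have hA₀ : ∀ v : ℕ, v.Prime → (A₀ v).LiesOverPrime v := fun v hv => by
    change (if hv : v.Prime then A₀' ⟨v, hv⟩ else ⊤).LiesOverPrime v
    rw [dif_pos hv]
    exact hA₀' ⟨v, hv⟩
  -- the geometric input
  have h2l : ∀ l : ℕ, l.Prime → l ≠ p → ¬ p ∣ 2 * l := by
    intro l hl hlp hd
    rcases (Nat.Prime.dvd_mul hp.out).1 hd with h1 | h1
    · exact hp2 ((Nat.prime_dvd_prime_iff_eq hp.out Nat.prime_two).1 h1)
    · exact hlp ((Nat.prime_dvd_prime_iff_eq hp.out hl).1 h1).symm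
  -- the residual representation is scalar at the primes of `T`
  have hSS0 : S₀ = S₀ ∪ Set.range (Fin.elim0 : Fin 0 → ℕ) := by
    rw [Set.range_eq_empty, Set.union_empty]
  have hN0 : M * r' = M * r' * ∏ i, (Fin.elim0 : Fin 0 → ℕ) i := by simp
  have hscal : ∀ l ∈ T, B1 (adR ρb) ((A₀ l).decompositionSubgroup ℚ) = ⊥ := by
    intro l hl
    obtain ⟨⟨hlp', hlp, hlM⟩, hlu⟩ := (hmemT l).1 hl
    obtain ⟨Φ, hΦ⟩ := exists_isFrobeniusAt (A₀ l) hlp (hA₀ l hlp)
    obtain ⟨X⟩ := exists_TWLev_W h hp2 hpO ι κ hgk hS₀ hpS₀ hgood hmod hr'12 hNS₀ (n := 1)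
      le_rfl (v := Fin.elim0) (A := Fin.elim0) (Φ := Fin.elim0) (fun i => i.elim0)
      (fun i => i.elim0) (fun i => i.elim0) (fun i => i.elim0) hN0 hSS0 hNS₀
    have E := E2P_W h hp2 hpO ι κ hgk hS₀ hpS₀ hgood hsq hr' hr'p hr'M hr'12 hr't hNS₀ hlp hlp'
      hlM (hmin l hlp hlp' hlM) (v := Fin.elim0) (A := Fin.elim0) (Φ := Fin.elim0)
      (fun i => i.elim0) (fun i => i.elim0) (fun i => i.elim0) hN0 hSS0 hNS₀ X (hA₀ l hlp) hΦ
    obtain ⟨-, a, ha⟩ := exists_QDat_W h hp2 hmO hpO ι κ hgk hg₀ hlp hlp' hNS₀ X (hA₀ l hlp)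
      (hlu _ (hA₀ l hlp)) hΦ E (h2l l hlp hlp')
    exact B1_bot_of_scalar fun σ hσ => scalar_dec hRes0.lc hlp (hA₀ l hlp) hΦ
      (fun σ hσ => by rw [hρb, ext_map', hlu _ (hA₀ l hlp) σ hσ, map_one]) ha hσ
  -- the local dimensions
  have hdim_p : Module.finrank k (LcW ρb p Lp T U p (A₀ p)) ≤ 5 := by
    rw [LcW_p]
    exact hLp5 _ (hA₀ _ hp.out)
  have hdim_r : Module.finrank k (LcW ρb p Lp T U r' (A₀ r')) ≤ 3 := by
    rw [LcW_Z hr'p hr'T hr'U]
    obtain ⟨Φ, hΦ⟩ := exists_isFrobeniusAt (A₀ r') hr' (hA₀ r' hr')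
    exact finrank_Z1_le_three (CFT.locDim hp2) hRes0 hr' hr'p (hA₀ r' hr')
      (H0_aux h κ hr' hr'p hr'1 (hA₀ r' hr') hΦ (hr't _ (hA₀ r' hr') Φ hΦ))
  have hdim_T : ∀ l ∈ T, Module.finrank k (LcW ρb p Lp T U l (A₀ l)) = 0 := by
    intro l hl
    rw [LcW_T ((hmemT l).1 hl).1.1 hl, hscal l hl, finrank_bot]
  have hdim_U : ∀ l ∈ U, Module.finrank k (LcW ρb p Lp T U l (A₀ l)) ≤ 3 := by
    intro l hl
    obtain ⟨⟨hlp', hlp, hlM⟩, hlu⟩ := (hmemU l).1 hl
    have hlT : l ∉ T := fun hh => Finset.disjoint_left.1 hTU hh hl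
    rw [LcW_U hlp' hlT hl]
    haveI : Fact l.Prime := ⟨hlp⟩
    refine (finrank_unipL_le (p := p) h2k hRes0.lc (Ne.symm hlp') (hA₀ l hlp)
      (fun σ hσ => ext_unip h κ hss hlp hlp' (hA₀ l hlp) hσ) ?_).2
    by_contra hcon
    push Not at hcon
    apply hlu
    intro A' hA' σ hσ
    obtain ⟨g, hg⟩ := Places.exists_smul_eq_of_liesOverPrime hlp (A₀ l) A' (hA₀ l hlp) hA'
    rw [← hg] at hσ
    have h1 := hcon _ (conj_inertia hσ)
    have h3 : σ = g * (g⁻¹ * σ * g) * g⁻¹ := by group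
    have h4 : ρb σ = 1 := by rw [h3, map_mul, map_mul, h1, mul_one, Sel.rho_mul_inv]
    ext i j
    apply κ.injective
    have h5 := congrFun (congrFun h4 i) j
    rw [hρb, extW_apply] at h5
    rw [h5, Matrix.one_apply, Matrix.one_apply]
    split_ifs
    · rw [map_one]
    · rw [_root_.map_zero]
  have hsum : ∑ v ∈ Sf₀, ((Module.finrank k (LcW ρb p Lp T U v (A₀ v)) : ℤ) - 3) ≤
      2 - 3 * T.card := by
    have hpn : p ∉ insert r' P' := by
      rw [Finset.mem_insert, not_or]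
      exact ⟨Ne.symm hr'p, hpP⟩
    have hPU : P' = T ∪ U := by
      ext l
      rw [hPTU, Finset.mem_union]
    rw [hSf₀, Finset.sum_insert hpn, Finset.sum_insert hr'P, hPU, Finset.sum_union hTU]
    have e1 : ∑ v ∈ T, ((Module.finrank k (LcW ρb p Lp T U v (A₀ v)) : ℤ) - 3) = -3 * T.card := by
      rw [Finset.sum_congr rfl fun l hl => by rw [hdim_T l hl]]
      simp [mul_comm]
    have e0 : ∑ v ∈ U, ((Module.finrank k (LcW ρb p Lp T U v (A₀ v)) : ℤ) - 3) ≤ 0 := by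
      refine Finset.sum_nonpos fun l hl => ?_
      have : ((Module.finrank k (LcW ρb p Lp T U l (A₀ l)) : ℕ) : ℤ) ≤ 3 := by
        exact_mod_cast hdim_U l hl
      linarith
    rw [e1]
    have e2 : ((Module.finrank k (LcW ρb p Lp T U p (A₀ p)) : ℕ) : ℤ) ≤ 5 := by
      exact_mod_cast hdim_p
    have e4 : ((Module.finrank k (LcW ρb p Lp T U r' (A₀ r')) : ℕ) : ℤ) ≤ 3 := by
      exact_mod_cast hdim_r
    linarith
  have hno := h.noLine hss hp35 κ
  -- the Taylor–Wiles primes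
  obtain ⟨r, hr⟩ := tw_sel (CFT.gw hp2) (CFT.locPerpTop hp2) (CFT.locDim hp2) hRes0 hconj
    (fun v A => LcW ρb p Lp T U v A) (fun v _ A hA => B1_le_LcW hRes0.lc hLp1 v A hA)
    (fun v _ A hA => LcW_le_Z1 hRes0.lc hLp2 v A hA) (fun v hv A => LcW_Z (fun e => hv ((hmemS v).2
      (Or.inl e))) (fun e => hv ((hmemS v).2 (Or.inr (Or.inr ((hPTU v).2 (Or.inl e))))))
      (fun e => hv ((hmemS v).2 (Or.inr (Or.inr ((hPTU v).2 (Or.inr e)))))) A) A₀
    (fun v hv => hA₀ v (hSprime v hv)) (fun D hDfin hD hD0 n hn S' hS' =>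
      TWG.hTW_of hRes0 hno (fun σ => by
        obtain ⟨α, β, h1, h2⟩ := hsplit σ
        exact ⟨α, β, h1.symm, h2.symm⟩) D hD hD0 n hn S' hS')
  -- numerical consequences
  have hcardT : 1 ≤ T.card := Finset.card_pos.2 ⟨q, (hmemT q).2 ⟨⟨hqp, hq, hqM⟩, hqu⟩⟩
  have hge : ∀ (S : Finset ℕ) (A : S → ValuationSubring Ω)
      (L : ∀ v : S, Submodule k ((A v).decompositionSubgroup ℚ → sl k)), ResH p ρb S →
      (∀ v, B1 (adR ρb) _ ≤ L v) → FiniteDimensional k (SelZ (adR ρb) S A L) →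
      3 ≤ Module.finrank k (SelZ (adR ρb) S A L) := by
    intro S A L hS hL hfin
    have hinj : Function.Injective (cobR ρb) := by
      rw [← LinearMap.ker_eq_bot, LinearMap.ker_eq_bot']
      intro X hX
      refine hinv X fun σ => ?_
      have := congrFun hX σ
      rw [cobR_apply, Pi.zero_apply, sub_eq_zero] at this
      exact this
    have h1 : Module.finrank k (LinearMap.range (cobR ρb)) = 3 := by
      rw [LinearMap.finrank_range_of_inj hinj, finrank_sl]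
    rw [← h1]
    refine Submodule.finrank_mono ?_
    rintro _ ⟨X, rfl⟩
    exact cobR_mem hS hL X
  -- enumeration of the primes of `T`
  let τ := T.card
  let qq : Fin τ → ℕ := fun j => T.equivFin.symm j
  have hqq : ∀ j, qq j ∈ T := fun j => (T.equivFin.symm j).2
  have hqq' : ∀ l ∈ T, ∃ j, qq j = l := fun l hl => ⟨T.equivFin ⟨l, hl⟩, by
    change ((T.equivFin.symm (T.equivFin ⟨l, hl⟩) : T) : ℕ) = l
    rw [Equiv.symm_apply_apply]⟩
  let j₀ : Fin τ := ⟨0, hcardT⟩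
  obtain ⟨e, he⟩ : ∃ e, ¬ p ^ (e + 1) ∣ qq j₀ - 1 := by
    refine ⟨qq j₀, fun hd => ?_⟩
    have hq0 := ((hmemT _).1 (hqq j₀)).1.2.1.two_le
    have h1 := Nat.le_of_dvd (by omega) hd
    have h2 : qq j₀ + 1 < p ^ (qq j₀ + 1) := Nat.lt_pow_self hp.out.one_lt
    omega
  let B := 2 ^ r * Module.finrank O (XG O (M * r'))
  -- the level data
  have hlev : ∃ g : ℕ, g + 3 * τ = r + 1 ∧ ∀ n, Nonempty (LevD O (p : O) p r τ g e B n) := by
    have hone : ∀ n, 3 * (τ : ℤ) ≤ r + 1 ∧ ∀ g : ℕ, g + 3 * τ = r + 1 →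
        Nonempty (LevD O (p : O) p r τ g e B (n + 1)) := by
      intro n
      obtain ⟨qv, A, Φ, hinj, hqv, S, Ach, hmem, hAch, hAch0, hAchi, hfin, hle⟩ :=
        hr (n + 1) (by omega) S₀ hS₀
      have hvg : ∀ i, W.IsGoodPrimeFor (qv i) := fun i => hgood _ (hqv i).2.2.prime (hqv i).1
      have hvp : ∀ i, qv i ≠ p := fun i e => (hqv i).1 (e ▸ hpS₀)
      have hSp : ∀ v ∈ S, v.Prime := by
        intro v hv
        rcases (hmem v).1 hv with h1 | ⟨i, rfl⟩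
        · exact hSprime v h1
        · exact (hqv i).2.2.prime
      have hResS : ResH p ρb S := hRes hSp fun v hv => (hmem v).2 (Or.inl hv)
      haveI := hfin
      have hB1 : ∀ v : S, B1 (adR ρb) _ ≤ LcW ρb p Lp T U v (Ach v) := fun v =>
        B1_le_LcW hRes0.lc hLp1 v _ (hAch v v.2)
      have h3 := hge S (fun v : S => Ach v) (fun v => LcW ρb p Lp T U v (Ach v)) hResS hB1 hfin
      have hle' : (Module.finrank k (SelZ (adR ρb) S (fun v : S => Ach v)
          fun v => LcW ρb p Lp T U v (Ach v)) : ℤ) ≤ 4 + r - 3 * τ := by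
        refine hle.trans ?_
        have := hsum
        change _ ≤ 4 + (r : ℤ) - 3 * (T.card : ℤ)
        linarith
      refine ⟨by
        have h4 : (3 : ℤ) ≤ (Module.finrank k (SelZ (adR ρb) S (fun v : S => Ach v)
          fun v => LcW ρb p Lp T U v (Ach v)) : ℤ) := by exact_mod_cast h3
        linarith, fun g hg => ?_⟩
      -- the level
      let N := M * r' * ∏ i, qv i
      have hprod0 : ∏ i, qv i ≠ 0 := Finset.prod_ne_zero_iff.2 fun i _ => (hqv i).2.2.prime.ne_zero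
      haveI : NeZero N := ⟨mul_ne_zero (mul_ne_zero hM0 hr'.ne_zero) hprod0⟩
      have hprimeN : ∀ l, l.Prime → l ∣ N → l ∣ M * r' ∨ ∃ i, qv i = l := by
        intro l hl hlN
        rcases (Nat.Prime.dvd_mul hl).1 hlN with h1 | h1
        · exact Or.inl h1
        · obtain ⟨i, -, hi⟩ := (hl.prime.dvd_finsetProd_iff _).1 h1
          exact Or.inr ⟨i, ((Nat.prime_dvd_prime_iff_eq hl (hqv i).2.2.prime).1 hi).symm⟩
      have hNS : ∀ l, l.Prime → l ∣ N → l ∈ S₀ ∪ Set.range qv := by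
        intro l hl hlN
        rcases hprimeN l hl hlN with h1 | ⟨i, hi⟩
        · exact Or.inl (hNS₀ l hl h1)
        · exact Or.inr ⟨i, hi⟩
      have hTWp : ∀ i, TWp p (fun g => (extW ρ κ g).trace) (qv i) (A i) (Φ i) := fun i =>
        TWp_of_TWd h κ (by omega : 1 ≤ n + 1) hroot hpO (hqv i).2.2 (hvg i) (hvp i)
      obtain ⟨X⟩ := exists_TWLev_W h hp2 hpO ι κ hgk hS₀ hpS₀ hgood hmod hr'12 hNS₀
        (n := n + 1) (by omega) hinj (fun i => (hqv i).1) (fun i => (hqv i).2.2.dvd) hTWp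
        (N := N) rfl rfl hNS
      have hNSf : ∀ l, l.Prime → l ∣ N → l ∈ S := by
        intro l hl hlN
        rcases hprimeN l hl hlN with h1 | ⟨i, hi⟩
        · refine (hmem l).2 (Or.inl ((hmemS l).2 ?_))
          rcases (Nat.Prime.dvd_mul hl).1 h1 with h1 | h1
          · by_cases hlp : l = p
            · exact Or.inl hlp
            · exact Or.inr (Or.inr ((hmemP l).2 ⟨hlp, hl, h1⟩))
          · exact Or.inr (Or.inl ((Nat.prime_dvd_prime_iff_eq hl hr').1 h1))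
        · exact (hmem l).2 (Or.inr ⟨i, hi⟩)
      have hE : ∀ (l : ℕ) (hl : l.Prime) (hlp : l ≠ p) (hlM : l ∣ M) (Aq : ValuationSubring Ω)
          (hAq : Aq.LiesOverPrime l) (Φq : 𝒢) (hΦq : Aq.IsFrobeniusAt Φq l),
          haveI := X.hH
          E2P p (psiY (HQ X.hvN X.c) hNS X.e) (rhoY hpO ι (HQ X.hvN X.c) hNS X.e) l Aq Φq :=
        fun l hl hlp hlM Aq hAq Φq hΦq => E2P_W h hp2 hpO ι κ hgk hS₀ hpS₀ hgood hsq hr' hr'p hr'M
          hr'12 hr't hNS₀ hl hlp hlM (hmin l hl hlp hlM) hinj (fun i => (hqv i).1) hTWp rfl rfl hNS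
          X hAq hΦq
      letI := X.hH
      letI := X.nt
      letI := X.fr
      have hred := redR_eq X.hg hgk hconj hg₀
      refine exists_LevD' hmO hconj hg₀ hinv X qq (fun j => A₀ (qq j)) ?_ j₀ he hResS
        hNSf (L := fun v => LcW ρb p Lp T U v (Ach v)) hB1 (g := g) ?_ ?_
      · intro j
        obtain ⟨⟨hjp', hjp, hjM⟩, hju⟩ := (hmemT _).1 (hqq j)
        obtain ⟨Φq, hΦq⟩ := exists_isFrobeniusAt (A₀ (qq j)) hjp (hA₀ _ hjp)
        exact (exists_QDat_W h hp2 hmO hpO ι κ hgk hg₀ hjp hjp' hNS X (hA₀ _ hjp)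
          (hju _ (hA₀ _ hjp)) hΦq (hE _ hjp hjp' hjM _ (hA₀ _ hjp) _ hΦq) (h2l _ hjp hjp')).1
      · have h4 : (Module.finrank k (SelZ (adR ρb) S (fun v : S => Ach v)
          fun v => LcW ρb p Lp T U v (Ach v)) : ℤ) ≤ 3 + g := by
          refine hle'.trans ?_
          have : (g : ℤ) + 3 * τ = r + 1 := by exact_mod_cast hg
          linarith
        exact_mod_cast h4
      · intro w
        by_cases hwp : (w : ℕ) = p
        · left
          intro I D hD hpI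
          have e1 : LcW ρb p Lp T U w (Ach w) = Lp (Ach w) := by
            rw [LcW, if_pos hwp]
          change _ ∈ LcW ρb p Lp T U w (Ach w)
          rw [e1]
          exact hLpm _ _ _ _ _ _ hinj (fun i => (hqv i).1) hTWp _ rfl _ rfl hNS X _
            (hwp ▸ hAch w w.2) I D hD hpI
        · by_cases hwT : (w : ℕ) ∈ T
          · right
            obtain ⟨j, hj⟩ := hqq' w hwT
            refine ⟨j, ?_⟩
            change Ach w = A₀ (qq j)
            rw [hj]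
            exact hAch0 w ((hmemS _).2 (Or.inr (Or.inr ((hPTU _).2 (Or.inl hwT)))))
          · left
            intro I D hD hpI
            change _ ∈ LcW ρb p Lp T U w (Ach w)
            by_cases hwU : (w : ℕ) ∈ U
            · rw [LcW_U hwp hwT hwU]
              obtain ⟨⟨hwp', hwpr, hwM⟩, -⟩ := (hmemU _).1 hwU
              have hAw := hAch w w.2
              obtain ⟨Φw, hΦw⟩ := exists_isFrobeniusAt (Ach w) hwpr hAw
              refine mem_unip X.hg hgk hD hred hpI fun σ hσ => ⟨?_, ?_⟩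
              · exact R_sq_zero X.hg hgk ((hE _ hwpr hwp' hwM _ hAw _ hΦw).sq σ hσ)
              · rw [X.hg.R_det, cycO_inertia hpO hwpr hwp' hAw hσ, map_one]
            · rw [LcW_Z hwp hwT hwU]
              exact mem_Z1 X.hg hgk hD hred hpI _
    have h3 : 3 * τ ≤ r + 1 := by exact_mod_cast (hone 0).1
    refine ⟨r + 1 - 3 * τ, by omega, fun n => ?_⟩
    obtain ⟨X⟩ := (hone n).2 (r + 1 - 3 * τ) (by omega)
    exact ⟨levMono X (Nat.le_succ n)⟩
  obtain ⟨g, hg, hlev⟩ := hlev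
  have hϖ0 : (p : O) ≠ 0 := Nat.cast_ne_zero.2 hp.out.ne_zero
  have h1 := lev_le (O := O) hϖ0 hmO hpO hlev
  have h2 : 1 ≤ τ := hcardT
  omega

end Fermat.Agent.WM
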