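import Fermat.Agent.ImW.Curve
import Fermat.Agent.TWG.TWof
import Fermat.Agent.MD.Glue
import Fermat.Agent.GalRep.S31Cond
import Fermat.Agent.LevelRaise.AuxPrime

/-!
# The residual pseudo-representation of a semistable curve
-/

set_option autoImplicit false
set_option linter.unusedSectionVars false
set_option linter.style.haveILetI false

noncomputable section

namespace Fermat.Agent.WM

open Matrix Module Fermat.Agent.GalRep Fermat.Agent.Sel Fermat.Agent.ImW Fermat.Agent.TWG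

local notation "Ω" => AlgebraicClosure ℚ

local notation "𝒢" => (AlgebraicClosure ℚ) ≃ₐ[ℚ] (AlgebraicClosure ℚ)

section

variable {p : ℕ} [hp : Fact p.Prime] {k : Type} [Field k] (κ : ZMod p →+* k)

include κ in
theorem two_ne (hp2 : p ≠ 2) : (2 : k) ≠ 0 := by
  intro h2
  have h3 : (2 : ZMod p) = 0 := by
    apply κ.injective
    rw [map_ofNat, h2, _root_.map_zero]
  have : ((2 : ℕ) : ZMod p) = 0 := by exact_mod_cast h3
  rw [ZMod.natCast_eq_zero_iff, Nat.prime_dvd_prime_iff_eq hp.out Nat.prime_two] at this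
  exact hp2 this

include κ in
theorem nat_ne {n : ℕ} (hn : ¬ p ∣ n) : (n : k) ≠ 0 := by
  intro h0
  apply hn
  rw [← ZMod.natCast_eq_zero_iff]
  apply κ.injective
  rw [map_natCast, h0, _root_.map_zero]

theorem κ_int (z : ZMod p) : κ z = ((z.val : ℤ) : k) := by
  conv_lhs => rw [← ZMod.natCast_zmod_val z]
  rw [map_natCast, Int.cast_natCast]

variable (ρ : 𝒢 →* M2 (ZMod p))

theorem ext_map (σ : 𝒢) : extW ρ κ σ = (ρ σ).map κ := rfl

theorem ext_map' (σ : 𝒢) : extW ρ κ σ = κ.mapMatrix (ρ σ) := rfl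

theorem ext_det (σ : 𝒢) : (extW ρ κ σ).det = κ (ρ σ).det := by
  rw [ext_map', ← RingHom.map_det]

theorem ext_trace (σ : 𝒢) : (extW ρ κ σ).trace = κ (ρ σ).trace := by
  rw [ext_map, Matrix.trace_fin_two, Matrix.trace_fin_two, map_add, Matrix.map_apply,
    Matrix.map_apply]

theorem isPseudoRep : IsPseudoRep (fun σ => (extW ρ κ σ).trace) (fun σ => (extW ρ κ σ).det) :=
  isPseudoRep_of_matrix (extW ρ κ)

end

variable {W : WeierstrassCurve ℤ} {p : ℕ} [hp : Fact p.Prime] {ρ : 𝒢 →* M2 (ZMod p)}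
  (h : ResW W p ρ) {k : Type} [Field k] (κ : ZMod p →+* k)

include h

theorem ext_lc : ∃ F : IntermediateField ℚ Ω, FiniteDimensional ℚ F ∧
    ∀ σ : 𝒢, (∀ x ∈ F, σ x = x) → extW ρ κ σ = 1 := by
  obtain ⟨F, hF, h1⟩ := h.lc
  exact ⟨F, hF, fun σ hσ => by rw [ext_map', h1 σ hσ, map_one]⟩

theorem isLocConst_ext : IsLocConst (extW ρ κ) := by
  obtain ⟨F, hF, h1⟩ := ext_lc h κ
  exact ⟨F, hF, fun σ hσ g => by rw [map_mul, h1 σ hσ, mul_one]⟩

theorem isLocConst_tr : IsLocConst (fun σ => (extW ρ κ σ).trace) :=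
  (isLocConst_ext h κ).comp fun X => X.trace

theorem ext_conj : extW ρ κ complexConjugation = !![1, 0; 0, -1] := by
  rw [ext_map, h.conj]
  ext i j
  fin_cases i <;> fin_cases j <;> simp

theorem ext_unr {l : ℕ} (hl : l.Prime) (hg : W.IsGoodPrimeFor l) (hlp : l ≠ p)
    {A : ValuationSubring Ω} (hA : A.LiesOverPrime l) {σ : 𝒢} (hσ : σ ∈ A.inertiaSubgroupIn ℚ) :
    extW ρ κ σ = 1 := by
  rw [ext_map', h.unr l hl hg hlp A hA σ hσ, map_one]

theorem ext_unip (hss : W.IsSemistableModel) {l : ℕ} (hl : l.Prime) (hlp : l ≠ p)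
    {A : ValuationSubring Ω} (hA : A.LiesOverPrime l) {σ : 𝒢} (hσ : σ ∈ A.inertiaSubgroupIn ℚ) :
    (extW ρ κ σ - 1) * (extW ρ κ σ - 1) = 0 := by
  have h1 := congrArg (κ.mapMatrix : M2 (ZMod p) →+* M2 k) (h.unip l hl (hss l hl) hlp A hA σ hσ)
  rw [map_mul, map_sub, map_one, _root_.map_zero] at h1
  exact h1

/-- traces and determinants of Frobenius -/
theorem frob {l : ℕ} (hl : l.Prime) (hg : W.IsGoodPrimeFor l) (hlp : l ≠ p)
    {A : ValuationSubring Ω} (hA : A.LiesOverPrime l) {τ : 𝒢} (hτ : A.IsFrobeniusAt τ l) :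
    (extW ρ κ τ).trace = κ (W.apOfModel l : ℤ) ∧ (extW ρ κ τ).det = (l : k) := by
  refine ⟨by rw [ext_trace, h.trace l hl hg hlp A hA τ hτ], ?_⟩
  rw [ext_det, h.det, cyc_frobenius ((Nat.coprime_primes hl hp.out).2 hlp) hA hτ, map_natCast]

omit h in
theorem ext_split (hroot : ∀ m n : ℤ, ∃ x y : k, x + y = m ∧ x * y = n) (σ : 𝒢) :
    ∃ α β : k, α + β = (extW ρ κ σ).trace ∧ α * β = (extW ρ κ σ).det := by
  obtain ⟨x, y, h1, h2⟩ := hroot ((ρ σ).trace.val : ℤ) ((ρ σ).det.val : ℤ)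
  exact ⟨x, y, by rw [h1, ext_trace, κ_int κ], by rw [h2, ext_det, κ_int κ]⟩

/-- the hypotheses on the residual representation -/
theorem resH_ext (hp2 : p ≠ 2) [Algebra (ZMod p) k] (hκ : algebraMap (ZMod p) k = κ) {S : Finset ℕ}
    (hSp : ∀ v ∈ S, v.Prime) (hpS : p ∈ S)
    (hS : ∀ l, l.Prime → l ∉ S → W.IsGoodPrimeFor l ∨ ∀ A : ValuationSubring Ω,
      A.LiesOverPrime l → ∀ σ ∈ A.inertiaSubgroupIn ℚ, ρ σ = 1) :
    ResH p (extW ρ κ) S where
  odd := hp2
  prime := hSp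
  mem := hpS
  lc := ext_lc h κ
  unr := fun l hl hlS A hA σ hσ => by
    rcases hS l hl hlS with h1 | h1
    · exact ext_unr h κ hl h1 (fun e => hlS (e ▸ hpS)) hA hσ
    · rw [ext_map', h1 A hA σ hσ, map_one]
  det := fun σ => by rw [ext_det, h.det, hκ]

/-- there is an element with two nonzero entries off the diagonal -/
theorem exists_off : ∃ σ : 𝒢, ρ σ 0 1 ≠ 0 ∧ ρ σ 1 0 ≠ 0 := by
  obtain ⟨g, hg⟩ := h.g0
  obtain ⟨g', hg'⟩ := h.k0
  by_cases h1 : ρ g 1 0 = 0
  · by_cases h2 : ρ g' 0 1 = 0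
    · refine ⟨g * g', ?_, ?_⟩
      · rw [map_mul, Matrix.mul_apply, Fin.sum_univ_two, h2, mul_zero, zero_add]
        refine mul_ne_zero (by rw [hg]; exact one_ne_zero) ?_
        have h3 := det_ne (ρ := ρ) g'
        rw [Matrix.det_fin_two, h2, zero_mul, sub_zero] at h3
        exact right_ne_zero_of_mul h3
      · rw [map_mul, Matrix.mul_apply, Fin.sum_univ_two, h1, zero_mul, zero_add]
        refine mul_ne_zero ?_ hg'
        have h3 := det_ne (ρ := ρ) g
        rw [Matrix.det_fin_two, h1, mul_zero, sub_zero] at h3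
        exact right_ne_zero_of_mul h3
    · exact ⟨g', h2, hg'⟩
  · exact ⟨g, by rw [hg]; exact one_ne_zero, h1⟩

/-- commutators have trace different from two -/
theorem exists_com (hp2 : p ≠ 2) : ∃ σ τ, (extW ρ κ (σ * τ * σ⁻¹ * τ⁻¹)).trace ≠ 2 := by
  obtain ⟨σ, hσ1, hσ2⟩ := exists_off h
  have h2 : (2 : ZMod p) ≠ 0 := two_ne (RingHom.id (ZMod p)) hp2
  refine ⟨complexConjugation, σ, ?_⟩
  rw [ext_trace, map_mul, map_mul, map_mul]
  have e0 : ρ complexConjugation⁻¹ = !![1, 0; 0, -1] := by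
    have : complexConjugation⁻¹ = complexConjugation := inv_eq_of_mul_eq_one_left
      complexConjugation_mul_self
    rw [this, h.conj]
  intro h3
  have h4 : (ρ complexConjugation * ρ σ * ρ complexConjugation⁻¹ * ρ σ⁻¹).trace = 2 := by
    apply κ.injective
    rw [h3, map_ofNat]
  rw [h.conj, e0] at h4
  have h5 := mul_inv' (ρ := ρ) σ
  set X := ρ σ with hX
  set Y := ρ σ⁻¹ with hY
  have a00 := congrFun (congrFun h5 0) 0
  have a01 := congrFun (congrFun h5 0) 1
  have a10 := congrFun (congrFun h5 1) 0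
  have a11 := congrFun (congrFun h5 1) 1
  simp only [Matrix.mul_apply, Fin.sum_univ_two, Matrix.one_apply_eq, ne_eq, zero_ne_one,
    not_false_eq_true, Matrix.one_apply_ne, one_ne_zero] at a00 a01 a10 a11
  rw [Matrix.trace_fin_two] at h4
  simp only [Matrix.mul_apply, Fin.sum_univ_two, Matrix.of_apply, Matrix.cons_val',
    Matrix.cons_val_zero, Matrix.cons_val_one, Matrix.cons_val_fin_one] at h4
  have h6 : X 0 1 * Y 1 0 = 0 := by
    have e : (2 : ZMod p) * 2 * (X 0 1 * Y 1 0) = 0 ∨ True := Or.inr trivial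
    have h7 : (X 0 1 * Y 1 0) + (X 1 0 * Y 0 1) = 0 := by
      have : (2 : ZMod p) * ((X 0 1 * Y 1 0) + (X 1 0 * Y 0 1)) = 0 := by
        linear_combination a00 + a11 - h4
      exact (mul_eq_zero.1 this).resolve_left h2
    have h8 : X 0 1 * Y 1 0 = X 1 0 * Y 0 1 := by
      have hdet : X.det ≠ 0 := det_ne (ρ := ρ) σ
      rw [Matrix.det_fin_two] at hdet
      have e1 : Y 1 0 * (X 0 0 * X 1 1 - X 0 1 * X 1 0) = - X 1 0 := by
        linear_combination X 0 0 * a10 - X 1 0 * a00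
      have e2 : Y 0 1 * (X 0 0 * X 1 1 - X 0 1 * X 1 0) = - X 0 1 := by
        linear_combination X 1 1 * a01 - X 0 1 * a11
      apply mul_right_cancel₀ hdet
      linear_combination X 0 1 * e1 - X 1 0 * e2
    have h9 : (2 : ZMod p) * (X 0 1 * Y 1 0) = 0 := by linear_combination h7 + h8
    exact (mul_eq_zero.1 h9).resolve_left h2
  rcases mul_eq_zero.1 h6 with h7 | h7
  · exact hσ1 h7
  · rw [h7, mul_zero, add_zero] at a00
    have h8 : X 1 0 * Y 0 0 = 0 := by rw [h7, mul_zero, add_zero] at a10; exact a10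
    rcases mul_eq_zero.1 h8 with h9 | h9
    · exact hσ2 h9
    · rw [h9, mul_zero] at a00
      exact zero_ne_one a00

/-- the centre -/
theorem ext_inv_zero (hss : W.IsSemistableModel) (hp35 : p = 3 ∨ p = 5) [CharP k p] {X : sl k}
    (hX : ∀ σ, adR (extW ρ κ) σ X = X) : X = 0 := by
  by_contra hne
  refine h.noLine hss hp35 κ X (sl_trace X) (fun h0 => hne (Subtype.ext h0)) fun g => ⟨1, ?_⟩
  rw [one_smul]
  exact congrArg Subtype.val (hX g)

end Fermat.Agent.WM
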